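import Fermat.Agent.S34.K789.WallFinal
import Fermat.Agent.A2.Top.H96.WallNoSep
import Fermat.Agent.A2.Mod.H142.S2Final
import Fermat.Agent.A2.Mod.H372.S3
import Fermat.Agent.A2.Mod.H96.L12
import Fermat.Agent.A2.Mod.H216.GoodRedAll

/-!
# S34, plain chain top (helper13, A2 row-lead)

`Fermat.Agent.S34.H13.s34_plain` is the statement of S34 (unipotent inertia at `q` exactly dividing
`N`, `q` different from `p`) proved by the plain chain `S34.K789.result_of_wall` applied to the A2
wall, exactly as in the plain `Fermat/Agent/S34.lean`.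

Purpose: consumers (rows S59, HARD) import this module and NOT the statement module
`Fermat.Agent.S34`, so that `S34.lean` can be replaced by a packed top without breaking them.
Plain files only; no statement module is imported here.
-/

set_option autoImplicit false
open IsLocalRing
open CuspForm CuspForm.HeckeGaloisRepDatum

namespace Fermat.Agent.S34.H13

/-- **S34, plain top** (same statement and proof term as the plain `Fermat.Agent.S34.result`).
Import THIS module, never `Fermat.Agent.S34`, from plain files. -/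
theorem s34_plain
    {𝒪 : Type} [CommRing 𝒪] [IsDomain 𝒪] [IsDiscreteValuationRing 𝒪]
    [IsAdicComplete (maximalIdeal 𝒪) 𝒪] [Finite (ResidueField 𝒪)] [CharZero 𝒪]
    {p : ℕ} (hp : p.Prime) (hp𝒪 : (p : 𝒪) ∈ maximalIdeal 𝒪)
    {N : ℕ} [NeZero N] {S : Finset ℕ} (hpS : p ∈ S) (hNS : ∀ q : ℕ, q.Prime → q ∣ N → q ∈ S)
    {θ : CuspForm.heckeAlgebra N 2 (↑S : Set ℕ) →+* ResidueField 𝒪}
    {T : Type} [CommRing T] [IsLocalRing T] [IsNoetherianRing T]
    [IsAdicComplete (maximalIdeal T) T] [Algebra 𝒪 T] [IsLocalHom (algebraMap 𝒪 T)]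
    [Module.Finite 𝒪 T] [Module.Free 𝒪 T]
    (H : CuspForm.HeckeGaloisRepDatum N (↑S : Set ℕ) 𝒪 θ T)
    (q : ℕ) (hq : q.Prime) (hqp : q ≠ p) (hqN : q ∣ N) (hq2 : ¬ q ^ 2 ∣ N) :
    H.ρ.IsUnipotentOnInertiaAt q := by
  exact Fermat.Agent.S34.K789.result_of_wall
    (Fermat.Agent.A2.Top.H96.wall_noSep
      (fun P E M q _ _ w => Fermat.Agent.A2.Mod.H142.s2 P E M q w)
      (fun P E M q _ _ w => Fermat.Agent.A2.Mod.H372.s3_of_leaves P E M q w
        (Fermat.Agent.A2.Mod.H751.frickeExists E)
        (Fermat.Agent.A2.Mod.H751.frickeCompat E M q)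
        (Fermat.Agent.A2.Mod.H900.frickeStable P E M q w)
        (Fermat.Agent.A2.Mod.H31.deg E M q)
        (Fermat.Agent.A2.Mod.H378.resInf P E M q w)
        (Fermat.Agent.A2.Mod.H96.kron P E M q w)
        (Fermat.Agent.A2.Mod.H142.s2 P E M q w))
      Fermat.Agent.A2.Top.H216.goodRedStatement)
    hp hp𝒪 hpS hNS H q hq hqp hqN hq2

end Fermat.Agent.S34.H13
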